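/-
S44 / F / Dual (sub-architect helper100; proofs helper193, task 2427).  NODE BASE, part (B1): the element `u` of
`S28.UData` is a modular unit: `ord_v u = 0` at every place `v` with `ord_v j ≥ 0`.
-/
import Fermat.Agent.S44.F.Dual.Defs
import Fermat.Agent.S24.FFSum
import Fermat.Agent.S28.UShape

set_option autoImplicit false
set_option linter.unusedSectionVars false

noncomputable section

namespace Fermat.Agent.S44.F

open ModularCurve AlgebraicCurve IntermediateField Fermat.Agent.S24 Fermat.Agent.GAL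

section U

variable {p M : ℕ} [NeZero M] [Fact p.Prime] (A : ValuationSubring Qb) (hA : A.LiesOverPrime p)
  (D : S28.UData M p) (hu : D.u ∈ modularFunctionFieldFull M)

/-- `u` over `ℚ̄` is the base change of `u` over `ℚ`. -/
theorem Unit.uK_eq_coeffEmb : S28.Export.uK A D hA = coeffEmb Kbar D.u := by
  rw [S28.Export.uK_eq]
  exact coeffMap_congr (Subsingleton.elim _ _) _

include hu in
theorem uK_mem : S28.Export.uK A D hA ∈ modularFunctionFieldBar M := by
  rw [Unit.uK_eq_coeffEmb]
  exact coeffEmb_mem_laurentBaseChange Kbar hu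

/-- the modular unit `u` as an element of `FN M` -/
def uF : FN M := ⟨S28.Export.uK A D hA, uK_mem A hA D hu⟩

theorem Unit.coe_uF : ((uF A hA D hu : FN M) : LaurentSeries Kbar) = coeffEmb Kbar D.u :=
  Unit.uK_eq_coeffEmb A hA D

theorem Unit.coeff_uF_lead :
    ((uF A hA D hu : FN M) : LaurentSeries Kbar).coeff (((D.n - 1) * D.w : ℕ) : ℤ) = 1 := by
  rw [Unit.coe_uF, coeffEmb_coeff, D.u_lead, map_one]

theorem Unit.coeff_uF_of_lt {k : ℤ} (hk : k < (((D.n - 1) * D.w : ℕ) : ℤ)) :
    ((uF A hA D hu : FN M) : LaurentSeries Kbar).coeff k = 0 := by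
  rw [Unit.coe_uF, coeffEmb_coeff, D.u_order k hk, map_zero]

theorem uF_ne_zero : uF A hA D hu ≠ 0 := by
  intro h
  have h1 := Unit.coeff_uF_lead A hA D hu
  rw [h] at h1
  exact zero_ne_one h1

theorem order_uF : ((uF A hA D hu : FN M) : LaurentSeries Kbar).order = (((D.n - 1) * D.w : ℕ) : ℤ) := by
  have hc : ((uF A hA D hu : FN M) : LaurentSeries Kbar).coeff (((D.n - 1) * D.w : ℕ) : ℤ) ≠ 0 := by
    rw [Unit.coeff_uF_lead]
    exact one_ne_zero
  have hne : ((uF A hA D hu : FN M) : LaurentSeries Kbar) ≠ 0 :=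
    HahnSeries.ne_zero_of_coeff_ne_zero hc
  refine le_antisymm (HahnSeries.order_le_of_coeff_ne_zero hc) ?_
  by_contra hlt
  rw [not_le] at hlt
  exact hne (HahnSeries.coeff_order_eq_zero.mp (Unit.coeff_uF_of_lt A hA D hu hlt))

theorem Unit.val_jF : ((jF M : FN M) : LaurentSeries Kbar) = jqModC Kbar := by
  change coeffEmb Kbar (qExpand ℚ 1 jq) = jqModC Kbar
  rw [qExpand_one_apply]
  exact coeffMap_jqModC (R := ℚ) _

/-- the equation `χ(j, u) = 0` in `FN M`. -/
theorem Unit.chiK_eval :
    (S28.Export.chiK A D hA).eval₂ (Polynomial.aeval (jF M) : Polynomial Kbar →ₐ[Kbar] FN M).toRingHom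
      (uF A hA D hu) = 0 := by
  apply Subtype.val_injective
  have h2 := Polynomial.hom_eval₂ (S28.Export.chiK A D hA)
    (Polynomial.aeval (jF M) : Polynomial Kbar →ₐ[Kbar] FN M).toRingHom
    (algebraMap (FN M) (LaurentSeries Kbar)) (uF A hA D hu)
  have h3 : (algebraMap (FN M) (LaurentSeries Kbar)).comp
      (Polynomial.aeval (jF M) : Polynomial Kbar →ₐ[Kbar] FN M).toRingHom =
      S28.Export.evalT (jqModC Kbar) := by
    refine RingHom.ext fun P => ?_
    rw [S28.Export.evalT_eq_aeval, ← Unit.val_jF (M := M)]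
    exact (Polynomial.aeval_algebraMap_apply (LaurentSeries Kbar) (jF M) P).symm
  rw [h3] at h2
  exact h2.trans (S28.Export.chiK_eval A D hA)

/-- the constant term of `χ` is a non-zero constant. -/
theorem Unit.exists_coeff_zero :
    ∃ c : Kbar, c ≠ 0 ∧ (S28.Export.chiK A D hA).coeff 0 = Polynomial.C c := by
  have h1 : IsUnit ((S28.Export.chiK A D hA).coeff 0) := by
    rw [S28.Export.chiK, S18.Vert.chiS_coeff, ← Polynomial.coe_mapRingHom]
    exact D.isUnit_coeff_zero.map _
  obtain ⟨c, hc, h⟩ := Polynomial.isUnit_iff.1 h1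
  exact ⟨c, hc.ne_zero, h.symm⟩

/-- (B1) -/
theorem ord_uF_eq_zero (v : Place Kbar (FN M)) (hv : 0 ≤ v.ord (jF M)) :
    v.ord (uF A hA D hu) = 0 := by
  set φ : Polynomial Kbar →+* FN M :=
    (Polynomial.aeval (jF M) : Polynomial Kbar →ₐ[Kbar] FN M).toRingHom with hφ
  set u := uF A hA D hu with hu'
  have hφV : ∀ P : Polynomial Kbar, φ P ∈ v.toValuationSubring := fun P =>
    FF.adjoin_le_of_ord_nonneg v hv _ (by
      rw [Algebra.adjoin_singleton_eq_range_aeval]
      exact ⟨P, rfl⟩)
  have heq : (S28.Export.chiK A D hA).eval₂ φ u = 0 := Unit.chiK_eval A hA D hu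
  -- `u` is integral over `K[j]`
  have huV : u ∈ v.toValuationSubring := by
    let φ' : Polynomial Kbar →+* v.toValuationSubring :=
      φ.codRestrict v.toValuationSubring.toSubring hφV
    have hint : IsIntegral v.toValuationSubring u := by
      refine ⟨(S28.Export.chiK A D hA).map φ', (S18.Vert.chiS_monic D _).map _, ?_⟩
      rw [Polynomial.eval₂_map]
      exact heq
    obtain ⟨y, hy⟩ := IsIntegrallyClosed.isIntegral_iff.mp hint
    exact hy ▸ y.2
  -- the cofactor
  obtain ⟨c, hc, hc0⟩ := Unit.exists_coeff_zero A hA D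
  set w := (S28.Export.chiK A D hA).divX.eval₂ φ u with hw
  have hwV : w ∈ v.toValuationSubring := by
    rw [hw, Polynomial.eval₂_eq_sum_range]
    exact sum_mem fun i _ => mul_mem (hφV _) (pow_mem huV i)
  have hprod : w * u = algebraMap Kbar (FN M) (-c) := by
    have h1 := congrArg (Polynomial.eval₂ φ u) (Polynomial.divX_mul_X_add (S28.Export.chiK A D hA))
    rw [Polynomial.eval₂_add, Polynomial.eval₂_mul, Polynomial.eval₂_X, Polynomial.eval₂_C, heq,
      hc0] at h1
    have h2 : φ (Polynomial.C c) = algebraMap Kbar (FN M) c := Polynomial.aeval_C _ _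
    rw [h2] at h1
    rw [map_neg]
    exact eq_neg_of_add_eq_zero_left h1
  have hne : w * u ≠ 0 := by
    rw [hprod]
    exact (map_ne_zero _).2 (neg_ne_zero.2 hc)
  have h3 := v.ord_mul (left_ne_zero_of_mul hne) (right_ne_zero_of_mul hne)
  rw [hprod, FF.ord_algebraMap] at h3
  have h4 := FF.ord_nonneg_of_mem v huV
  have h5 := FF.ord_nonneg_of_mem v hwV
  omega

end U

end Fermat.Agent.S44.F

end
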