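/-
S44 / F / Dual (sub-architect helper100; proof helper204, task 2428).  NODE BASE, part (B2):
`[FN M : K(u)] ≤ (n - 1) w`: `FN M = K(u)(j)` and `j` is a root of the nonzero polynomial `χ(X, u)` of `X`-degree
`≤ (n - 1) w` over `K(u)`.
-/
import Fermat.Agent.S44.F.Dual.Base.Unit
import Fermat.Agent.S18.Base.Coord

set_option autoImplicit false
set_option linter.unusedSectionVars false

noncomputable section

namespace Fermat.Agent.S44.F

open ModularCurve AlgebraicCurve IntermediateField Fermat.Agent.S24 Fermat.Agent.GAL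

section U

variable {p M : ℕ} [NeZero M] [Fact p.Prime] (A : ValuationSubring Qb) (hA : A.LiesOverPrime p)
  (D : S28.UData M p) (hu : D.u ∈ modularFunctionFieldFull M)

/-- `u` is transcendental over the constants as soon as it vanishes at the cusp. -/
theorem Degree.transcendental_uF (h : 0 < (D.n - 1) * D.w) :
    Transcendental Kbar (uF A hA D hu) := by
  have h1 : Transcendental Kbar ((uF A hA D hu : FN M) : LaurentSeries Kbar) := by
    apply S18.Coord.transcendental_of_order_ne_zero
    rw [order_uF]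
    exact_mod_cast h.ne'
  exact (transcendental_algebraMap_iff (A := LaurentSeries Kbar)
    (algebraMap (FN M) (LaurentSeries Kbar)).injective).1 h1

/-- `FN M = K(u, j)`. -/
theorem Degree.adjoin_eq_top :
    (IntermediateField.adjoin Kbar {uF A hA D hu, jF M} : IntermediateField Kbar (FN M)) = ⊤ := by
  apply IntermediateField.map_injective (modularFunctionFieldBar M).val
  rw [IntermediateField.adjoin_map, Set.image_pair]
  have h1 : (modularFunctionFieldBar M).val (uF A hA D hu) = S28.Export.uK A D hA := rfl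
  have h2 : (modularFunctionFieldBar M).val (jF M) = jqModC Kbar := Unit.val_jF (M := M)
  rw [h1, h2, Set.pair_comm]
  have h3 := S28.Export.bigK_eq_full A D hA hu
  rw [S28.Export.bigK, ← S28.Export.bar_eq_full] at h3
  rw [h3]
  ext x
  simp

/-- the polynomial `χ(X, u)` over `K(u)` -/
def Degree.swapPoly : Polynomial Kbar⟮uF A hA D hu⟯ :=
  ∑ i ∈ Finset.range (D.n + 1),
    ((S28.Export.chiK A D hA).coeff i).map (algebraMap Kbar Kbar⟮uF A hA D hu⟯) *
      Polynomial.C (AdjoinSimple.gen Kbar (uF A hA D hu) ^ i)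

theorem Degree.aeval_swapPoly : Polynomial.aeval (jF M) (Degree.swapPoly A hA D hu) = 0 := by
  have h := Unit.chiK_eval A hA D hu
  rw [Polynomial.eval₂_eq_sum_range, S28.Export.chiK_natDegree] at h
  rw [Degree.swapPoly, map_sum, ← h]
  refine Finset.sum_congr rfl fun i _ => ?_
  rw [map_mul, Polynomial.aeval_C, map_pow, AdjoinSimple.algebraMap_gen, Polynomial.aeval_map_algebraMap]
  rfl

theorem Degree.natDegree_coeff_le {i : ℕ} (hi : i ≤ D.n) :
    ((S28.Export.chiK A D hA).coeff i).natDegree ≤ (D.n - i) * D.w := by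
  rw [S28.Export.chiK, S18.Vert.chiS_coeff]
  refine Polynomial.natDegree_map_le.trans ?_
  have := D.deg_le (D.n - i) (Nat.sub_le _ _)
  rwa [Nat.sub_sub_self hi] at this

theorem Degree.natDegree_swapPoly_le :
    (Degree.swapPoly A hA D hu).natDegree ≤ (D.n - 1) * D.w := by
  rw [Degree.swapPoly]
  refine Polynomial.natDegree_sum_le_of_forall_le _ _ fun i hi => ?_
  rw [Finset.mem_range, Nat.lt_succ_iff] at hi
  refine (Polynomial.natDegree_mul_C_le _ _).trans (Polynomial.natDegree_map_le.trans ?_)
  rcases Nat.eq_zero_or_pos i with rfl | hpos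
  · obtain ⟨c, -, hc⟩ := Unit.exists_coeff_zero A hA D
    rw [hc, Polynomial.natDegree_C]
    exact Nat.zero_le _
  · exact (Degree.natDegree_coeff_le A hA D hi).trans
      (Nat.mul_le_mul_right _ (Nat.sub_le_sub_left hpos _))

theorem Degree.swapPoly_ne_zero (h : 0 < (D.n - 1) * D.w) : Degree.swapPoly A hA D hu ≠ 0 := by
  intro h0
  have htr := Degree.transcendental_uF A hA D hu h
  set R : Polynomial Kbar := (S28.Export.chiK A D hA).map (Polynomial.evalRingHom 0) with hR
  have hRm : R.Monic := (S18.Vert.chiS_monic D _).map _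
  have hRd : R.natDegree = D.n := by
    have hm : (S28.Export.chiK A D hA).Monic := S18.Vert.chiS_monic D _
    rw [hR, hm.natDegree_map, S28.Export.chiK_natDegree]
  apply htr
  refine ⟨R, hRm.ne_zero, ?_⟩
  have h1 : (Degree.swapPoly A hA D hu).coeff 0 = 0 := by rw [h0, Polynomial.coeff_zero]
  rw [Degree.swapPoly, Polynomial.finsetSum_coeff] at h1
  have h2 := congrArg (algebraMap Kbar⟮uF A hA D hu⟯ (FN M)) h1
  rw [map_sum, map_zero] at h2
  rw [Polynomial.aeval_eq_sum_range, hRd, ← h2]
  refine Finset.sum_congr rfl fun i _ => ?_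
  rw [Polynomial.coeff_mul_C, map_mul, map_pow, AdjoinSimple.algebraMap_gen,
    Polynomial.coeff_map (algebraMap Kbar Kbar⟮uF A hA D hu⟯),
    ← IsScalarTower.algebraMap_apply, hR, Polynomial.coeff_map, Polynomial.coe_evalRingHom,
    ← Polynomial.coeff_zero_eq_eval_zero, Algebra.smul_def]

/-- (B2) -/
theorem finrank_uF_le (h : 0 < (D.n - 1) * D.w) :
    Module.finrank Kbar⟮uF A hA D hu⟯ (FN M) ≤ (D.n - 1) * D.w := by
  have hne := Degree.swapPoly_ne_zero A hA D hu h
  have hroot := Degree.aeval_swapPoly A hA D hu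
  have hint : IsIntegral Kbar⟮uF A hA D hu⟯ (jF M) :=
    (isAlgebraic_iff_isIntegral).1 ⟨_, hne, hroot⟩
  have htop : (Kbar⟮uF A hA D hu⟯⟮jF M⟯ : IntermediateField Kbar⟮uF A hA D hu⟯ (FN M)) = ⊤ := by
    apply IntermediateField.restrictScalars_injective Kbar
    rw [IntermediateField.adjoin_simple_adjoin_simple, IntermediateField.restrictScalars_top]
    exact Degree.adjoin_eq_top A hA D hu
  have h1 := IntermediateField.adjoin.finrank hint
  rw [htop, IntermediateField.finrank_top'] at h1
  rw [h1]
  exact (Polynomial.natDegree_le_of_dvd (minpoly.dvd _ _ hroot) hne).trans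
    (Degree.natDegree_swapPoly_le A hA D hu)

end U

end Fermat.Agent.S44.F

end
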