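/-
S44 / F / Dual (sub-architect helper100).  NODE BASE, parts (B3), (B4): the modular unit `u` of `S28.UData` has a
pole at every pole of `j` other than the cusp `∞`; the ramification indices of the poles of `j` are `≤ n`.
-/
import Fermat.Agent.S44.F.Dual.Base.Unit
import Fermat.Agent.S44.F.Dual.Base.Degree
import Fermat.Agent.S24.FFDeg
import Fermat.Agent.S24.Export.Ramification

set_option autoImplicit false
set_option linter.unusedSectionVars false

noncomputable section

namespace Fermat.Agent.S44.F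

open ModularCurve AlgebraicCurve IntermediateField Fermat.Agent.S24 Fermat.Agent.GAL

section Abs

open Polynomial

variable {K F : Type*} [Field K] [Field F] [Algebra K F] (v : Place K F)

theorem Cusps.val_lt_one_of_ord_pos {f : F} (h : 0 < v.ord f) :
    v.toValuationSubring.valuation f < 1 := by
  have h1 : f ∈ v.toValuationSubring := FF.mem_of_ord_nonneg v h.le
  refine lt_of_le_of_ne ((ValuationSubring.valuation_le_one_iff _ _).2 h1) fun h2 => ?_
  have h3 : f⁻¹ ∈ v.toValuationSubring := by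
    rw [← ValuationSubring.valuation_le_one_iff, map_inv₀, h2, inv_one]
  have h4 := FF.ord_nonneg_of_mem v h3
  rw [v.ord_inv] at h4
  omega

theorem Cusps.ord_eq_zero_of_val_eq_one {f : F} (h : v.toValuationSubring.valuation f = 1) :
    v.ord f = 0 := by
  have h1 : f ∈ v.toValuationSubring := (ValuationSubring.valuation_le_one_iff _ _).1 h.le
  have h3 : f⁻¹ ∈ v.toValuationSubring := by
    rw [← ValuationSubring.valuation_le_one_iff, map_inv₀, h, inv_one]
  have h2 := FF.ord_nonneg_of_mem v h1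
  have h4 := FF.ord_nonneg_of_mem v h3
  rw [v.ord_inv] at h4
  omega

theorem Cusps.val_const_le (a : K) : v.toValuationSubring.valuation (algebraMap K F a) ≤ 1 :=
  (ValuationSubring.valuation_le_one_iff _ _).2 (v.algebraMap_mem' a)

theorem Cusps.val_const {a : K} (ha : a ≠ 0) :
    v.toValuationSubring.valuation (algebraMap K F a) = 1 := by
  refine le_antisymm (Cusps.val_const_le v a) ?_
  have h2 := Cusps.val_const_le v a⁻¹
  rw [map_inv₀, map_inv₀] at h2
  have h0 : 0 < v.toValuationSubring.valuation (algebraMap K F a) :=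
    zero_lt_iff.2 ((Valuation.ne_zero_iff _).2 ((_root_.map_ne_zero _).2 ha))
  exact (inv_le_one₀ h0).1 h2

/-- `j^(-d) P(j) ≡ coeff_d P` at a pole of `j`, if `deg P ≤ d`. -/
theorem Cusps.val_poly {j : F} (hj0 : j ≠ 0) (hj : v.toValuationSubring.valuation j⁻¹ < 1)
    (P : K[X]) (d : ℕ) (hd : P.natDegree ≤ d) :
    v.toValuationSubring.valuation (j⁻¹ ^ d * aeval j P - algebraMap K F (P.coeff d)) < 1 := by
  have h1 : j⁻¹ ^ d * aeval j P - algebraMap K F (P.coeff d) =
      ∑ i ∈ Finset.range d, algebraMap K F (P.coeff i) * j⁻¹ ^ (d - i) := by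
    rw [aeval_eq_sum_range' (Nat.lt_succ_of_le hd), Finset.sum_range_succ, mul_add,
      Finset.mul_sum, Algebra.smul_def, mul_left_comm, ← mul_pow, inv_mul_cancel₀ hj0, one_pow,
      mul_one, add_sub_cancel_right]
    refine Finset.sum_congr rfl fun i hi => ?_
    have hi' : i ≤ d := (Finset.mem_range.1 hi).le
    rw [Algebra.smul_def, mul_left_comm]
    congr 1
    conv_lhs => rw [← Nat.sub_add_cancel hi', pow_add]
    rw [mul_assoc, ← mul_pow, inv_mul_cancel₀ hj0, one_pow, mul_one]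
  rw [h1]
  refine Valuation.map_sum_lt _ one_ne_zero fun i hi => ?_
  rw [map_mul, map_pow]
  have hi' : d - i ≠ 0 := by
    have := Finset.mem_range.1 hi
    omega
  exact mul_lt_one_of_nonneg_of_lt_one_right (Cusps.val_const_le v _) zero_le (pow_lt_one₀ zero_le hj hi')

theorem Cusps.val_poly_le {j : F} (hj0 : j ≠ 0) (hj : v.toValuationSubring.valuation j⁻¹ < 1)
    (P : K[X]) (d : ℕ) (hd : P.natDegree ≤ d) :
    v.toValuationSubring.valuation (j⁻¹ ^ d * aeval j P) ≤ 1 := by
  have h1 := Cusps.val_poly v hj0 hj P d hd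
  have h2 : j⁻¹ ^ d * aeval j P =
      (j⁻¹ ^ d * aeval j P - algebraMap K F (P.coeff d)) + algebraMap K F (P.coeff d) := by ring
  rw [h2]
  exact Valuation.map_add_le _ h1.le (Cusps.val_const_le v _)

/-- the Newton polygon argument (B3), abstractly. -/
theorem Cusps.ord_root {j u : F} (hj : v.ord j < 0) (hu : 0 ≤ v.ord u) (χ : K[X][X]) (k w : ℕ)
    (hw : 1 ≤ w) (hdeg : χ.natDegree = k + 1)
    (hle : ∀ m ≤ k + 1, (χ.coeff m).natDegree ≤ (k + 1 - m) * w)
    (hlead : (χ.coeff 1).coeff (k * w) ≠ 0) (c : K) (hc : c ≠ 0) (hc0 : χ.coeff 0 = C c)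
    (h0 : χ.eval₂ (aeval j : K[X] →ₐ[K] F).toRingHom u = 0) :
    v.ord u = - v.ord j * ((k * w : ℕ) : ℤ) := by
  set φ : K[X] →+* F := (aeval j : K[X] →ₐ[K] F).toRingHom with hφ
  have hφa : ∀ P, φ P = aeval j P := fun _ => rfl
  have hj0 : j ≠ 0 := FF.ne_zero_of_ord_ne_zero v hj.ne
  have hjv : v.toValuationSubring.valuation j⁻¹ < 1 :=
    Cusps.val_lt_one_of_ord_pos v (by rw [v.ord_inv]; omega)
  have huv : v.toValuationSubring.valuation u ≤ 1 :=
    (ValuationSubring.valuation_le_one_iff _ _).2 (FF.mem_of_ord_nonneg v hu)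
  set y := χ.divX.eval₂ φ u with hy
  have hprod : y * u = algebraMap K F (-c) := by
    have h1 := congrArg (Polynomial.eval₂ φ u) (Polynomial.divX_mul_X_add χ)
    rw [Polynomial.eval₂_add, Polynomial.eval₂_mul, Polynomial.eval₂_X, Polynomial.eval₂_C, h0,
      hc0] at h1
    have h2 : φ (Polynomial.C c) = algebraMap K F c := Polynomial.aeval_C _ _
    rw [h2] at h1
    rw [map_neg]
    exact eq_neg_of_add_eq_zero_left h1
  have hne : y * u ≠ 0 := by
    rw [hprod]
    exact (_root_.map_ne_zero _).2 (neg_ne_zero.2 hc)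
  have hy0 : y ≠ 0 := left_ne_zero_of_mul hne
  have hu0 : u ≠ 0 := right_ne_zero_of_mul hne
  have hsum : y = ∑ i ∈ Finset.range (k + 1), φ (χ.coeff (i + 1)) * u ^ i := by
    have hd : χ.divX.natDegree < k + 1 := by
      rw [Polynomial.natDegree_divX_eq_natDegree_tsub_one, hdeg]
      omega
    rw [hy, Polynomial.eval₂_eq_sum_range' φ hd]
    refine Finset.sum_congr rfl fun i _ => ?_
    rw [Polynomial.coeff_divX]
  have key : v.toValuationSubring.valuation
      (j⁻¹ ^ (k * w) * y - algebraMap K F ((χ.coeff 1).coeff (k * w))) < 1 := by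
    have h1 : j⁻¹ ^ (k * w) * y - algebraMap K F ((χ.coeff 1).coeff (k * w)) =
        ∑ i ∈ Finset.range k, j⁻¹ ^ (k * w) * (φ (χ.coeff (i + 1 + 1)) * u ^ (i + 1)) +
          (j⁻¹ ^ (k * w) * aeval j (χ.coeff 1) - algebraMap K F ((χ.coeff 1).coeff (k * w))) := by
      rw [hsum, Finset.sum_range_succ', mul_add, Finset.mul_sum, pow_zero, mul_one, hφa, add_sub_assoc]
    rw [h1]
    refine Valuation.map_add_lt _ (Valuation.map_sum_lt _ one_ne_zero fun i hi => ?_) ?_
    · have hi' : i < k := Finset.mem_range.1 hi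
      have e1 : k * w = (i + 1) * w + (k + 1 - (i + 1 + 1)) * w := by
        rw [← Nat.add_mul]
        congr 1
        omega
      have e2 : j⁻¹ ^ (k * w) * (φ (χ.coeff (i + 1 + 1)) * u ^ (i + 1)) =
          j⁻¹ ^ ((i + 1) * w) *
            ((j⁻¹ ^ ((k + 1 - (i + 1 + 1)) * w) * aeval j (χ.coeff (i + 1 + 1))) * u ^ (i + 1)) := by
        rw [e1, pow_add, hφa]
        ring
      rw [e2, map_mul, map_mul, map_pow, map_pow _ u]
      have e3 : (i + 1) * w ≠ 0 := Nat.mul_ne_zero (Nat.succ_ne_zero i) (by omega)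
      refine mul_lt_one_of_nonneg_of_lt_one_left zero_le (pow_lt_one₀ zero_le hjv e3) ?_
      exact mul_le_one' (Cusps.val_poly_le v hj0 hjv _ _ (hle _ (by omega))) (pow_le_one' huv _)
    · have := hle 1 (by omega)
      rw [Nat.add_sub_cancel] at this
      exact Cusps.val_poly v hj0 hjv _ _ this
  have hval : v.toValuationSubring.valuation (j⁻¹ ^ (k * w) * y) = 1 := by
    rw [← Cusps.val_const v hlead]
    refine Valuation.map_eq_of_sub_lt _ ?_
    rw [Cusps.val_const v hlead]
    exact key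
  have h1 := Cusps.ord_eq_zero_of_val_eq_one v hval
  rw [v.ord_mul (pow_ne_zero _ (inv_ne_zero hj0)) hy0, FF.ord_pow, v.ord_inv] at h1
  have h3 := v.ord_mul hy0 hu0
  rw [hprod, FF.ord_algebraMap] at h3
  have h4 : v.ord u = ((k * w : ℕ) : ℤ) * -v.ord j := by omega
  rw [h4]
  ring

end Abs

section U

variable {p M : ℕ} [NeZero M] [Fact p.Prime] (A : ValuationSubring Qb) (hA : A.LiesOverPrime p)
  (D : S28.UData M p) (hu : D.u ∈ modularFunctionFieldFull M)

/-- (B3), local part -/
theorem ord_uF_of_nonneg (v : Place Kbar (FN M)) (hv : v.ord (jF M) < 0)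
    (ha : 0 ≤ v.ord (uF A hA D hu)) :
    v.ord (uF A hA D hu) = - v.ord (jF M) * (((D.n - 1) * D.w : ℕ) : ℤ) := by
  obtain ⟨c, hc, hc0⟩ := Unit.exists_coeff_zero A hA D
  obtain ⟨k, hk⟩ : ∃ k, D.n = k + 1 := ⟨D.n - 1, by have := D.hn; omega⟩
  have key := Cusps.ord_root v hv ha (S28.Export.chiK A D hA) k D.w D.hw
    (by rw [S28.Export.chiK_natDegree, hk]) ?_ ?_ c hc hc0 (Unit.chiK_eval A hA D hu)
  · rw [hk, Nat.add_sub_cancel]
    exact key
  · intro m hm
    rw [S28.Export.chiK, S18.Vert.chiS_coeff]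
    refine Polynomial.natDegree_map_le.trans ?_
    have h1 := D.deg_le (D.n - m) (Nat.sub_le _ _)
    rw [Nat.sub_sub_self (hk ▸ hm), hk] at h1
    exact h1
  · rw [S28.Export.chiK, S18.Vert.chiS_coeff, Polynomial.coeff_map]
    have h1 := D.lead_unit
    rw [hk, Nat.add_sub_cancel] at h1
    exact (h1.map _).ne_zero

theorem Cusps.ord_cusp_jF : (S17.W.cusp M).ord (jF M) = -1 := by
  have hj0 : jF M ≠ 0 := fun h0 => Formal.transcendental_jF M (h0 ▸ isAlgebraic_zero)
  rw [S17.W.ord_cusp M _ hj0]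
  exact B.order_Jser_one

/-- (B4) -/
theorem neg_ord_jF_le (hn : D.n = (CongruenceSubgroup.Gamma0 M).index) (v : Place Kbar (FN M)) :
    - v.ord (jF M) ≤ D.n := by
  have hFF : FF.IsFF1 Kbar (FN M) := Export.isFF1 M
  obtain ⟨s, hs, hsum⟩ := FF.exists_finset_ord_neg (jF M) (Formal.transcendental_jF M)
  rw [Export.finrank_eq_index M, ← hn] at hsum
  by_cases hv : v.ord (jF M) < 0
  · have h1 : ∑ w ∈ s, (- w.ord (jF M)) = (D.n : ℤ) := by
      rw [Finset.sum_neg_distrib, hsum, neg_neg]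
    rw [← h1]
    exact Finset.single_le_sum (f := fun w : Place Kbar (FN M) => - w.ord (jF M))
      (fun w hw => by have := (hs w).1 hw; show 0 ≤ - w.ord (jF M); omega) ((hs v).2 hv)
  · have : (0 : ℤ) ≤ (D.n : ℤ) := Int.natCast_nonneg _
    omega

/-- (B3), with (B2) as a hypothesis -/
theorem Cusps.ord_uF_neg_of
    (hB2 : 0 < (D.n - 1) * D.w →
      Module.finrank Kbar⟮uF A hA D hu⟯ (FN M) ≤ (D.n - 1) * D.w)
    (hn : D.n = (CongruenceSubgroup.Gamma0 M).index) (v : Place Kbar (FN M))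
    (hv : v.ord (jF M) < 0) (hne : v ≠ S17.W.cusp M) :
    v.ord (uF A hA D hu) < 0 := by
  classical
  have hFF : FF.IsFF1 Kbar (FN M) := Export.isFF1 M
  by_contra hcon
  rw [not_lt] at hcon
  have ha := ord_uF_of_nonneg A hA D hu v hv hcon
  have hcu : (S17.W.cusp M).ord (uF A hA D hu) = (((D.n - 1) * D.w : ℕ) : ℤ) := by
    rw [S17.W.ord_cusp M _ (uF_ne_zero A hA D hu), order_uF]
  rcases Nat.eq_zero_or_pos ((D.n - 1) * D.w) with hd | hd
  · -- `n = 1`: `j` has only one pole
    have hn1 : D.n = 1 := by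
      have h1 := D.hn
      have h2 := D.hw
      rcases Nat.mul_eq_zero.1 hd with h | h <;> omega
    obtain ⟨s, hs, hsum⟩ := FF.exists_finset_ord_neg (jF M) (Formal.transcendental_jF M)
    rw [Export.finrank_eq_index M, ← hn, hn1] at hsum
    have hvs : v ∈ s := (hs v).2 hv
    have hcs : S17.W.cusp M ∈ s := (hs _).2 (by rw [Cusps.ord_cusp_jF]; norm_num)
    have hsub : ({v, S17.W.cusp M} : Finset (Place Kbar (FN M))) ⊆ s := by
      intro w hw
      rcases Finset.mem_insert.1 hw with rfl | hw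
      · exact hvs
      · rw [Finset.mem_singleton.1 hw]
        exact hcs
    have h1 : ∑ w ∈ s, (- w.ord (jF M)) = 1 := by
      rw [Finset.sum_neg_distrib, hsum]
      norm_num
    have h2 := Finset.sum_le_sum_of_subset_of_nonneg
      (f := fun w : Place Kbar (FN M) => - w.ord (jF M)) hsub
      (fun w hw _ => by have := (hs w).1 hw; show 0 ≤ - w.ord (jF M); omega)
    rw [Finset.sum_pair hne, h1, Cusps.ord_cusp_jF] at h2
    omega
  · -- `d₀ > 0`: count the zeros of `u`
    have htr : Transcendental Kbar (uF A hA D hu) := by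
      rcases FF.exists_const_or_transcendental (K := Kbar) (uF A hA D hu) with ⟨c, hc⟩ | h
      · exfalso
        rw [hc, FF.ord_algebraMap] at hcu
        have : (0 : ℤ) < (((D.n - 1) * D.w : ℕ) : ℤ) := Int.natCast_pos.2 hd
        omega
      · exact h
    obtain ⟨s, hs, hsum⟩ := FF.exists_finset_ord_pos (uF A hA D hu) htr
    have hd' : (0 : ℤ) < (((D.n - 1) * D.w : ℕ) : ℤ) := Int.natCast_pos.2 hd
    have hvpos : (((D.n - 1) * D.w : ℕ) : ℤ) ≤ v.ord (uF A hA D hu) := by
      rw [ha]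
      nlinarith
    have hvs : v ∈ s := (hs v).2 (by omega)
    have hcs : S17.W.cusp M ∈ s := (hs _).2 (by rw [hcu]; exact hd')
    have hsub : ({v, S17.W.cusp M} : Finset (Place Kbar (FN M))) ⊆ s := by
      intro w hw
      rcases Finset.mem_insert.1 hw with rfl | hw
      · exact hvs
      · rw [Finset.mem_singleton.1 hw]
        exact hcs
    have h2 := Finset.sum_le_sum_of_subset_of_nonneg
      (f := fun w : Place Kbar (FN M) => w.ord (uF A hA D hu)) hsub
      (fun w hw _ => ((hs w).1 hw).le)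
    rw [Finset.sum_pair hne, hsum, hcu] at h2
    have h3 : (Module.finrank Kbar⟮uF A hA D hu⟯ (FN M) : ℤ) ≤ (((D.n - 1) * D.w : ℕ) : ℤ) :=
      Int.ofNat_le.2 (hB2 hd)
    omega

/-- (B3) -/
theorem ord_uF_neg (hn : D.n = (CongruenceSubgroup.Gamma0 M).index) (v : Place Kbar (FN M))
    (hv : v.ord (jF M) < 0) (hne : v ≠ S17.W.cusp M) :
    v.ord (uF A hA D hu) < 0 :=
  Cusps.ord_uF_neg_of A hA D hu (finrank_uF_le A hA D hu) hn v hv hne

end U

end Fermat.Agent.S44.F

end
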