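/-
S44 / F / Dual, node BASE, part B4 (core).  `t = j * U^(-κ)` for an element `U` of `FN M` whose expansion is the
modular unit `u` of `S28.UData`: the expansion of `t` is `A`-integral with leading coefficient one, and (given
the orders of `U` at the places of `FN M`) the only pole of `t` is the cusp `∞`, of order prime to `p`.
The statements here do not depend on the other parts of the node: the facts on `U` are hypotheses.
-/
import Fermat.Agent.S44.F.Dual.Defs
import Fermat.Agent.S24.FFSum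

set_option autoImplicit false
set_option linter.unusedSectionVars false

noncomputable section

namespace Fermat.Agent.S44.F

open ModularCurve AlgebraicCurve IntermediateField Fermat.Agent.S24 Fermat.Agent.GAL

namespace BaseCore

/-- the inverse of a Laurent series with leading coefficient one -/
theorem exists_inv_of_ordGE {R : Type*} [CommRing R] [Nontrivial R] {f : LaurentSeries R} {m : ℤ}
    (hf : S28.OrdGE f m) (h1 : f.coeff m = 1) :
    ∃ v : LaurentSeries R, f * v = 1 ∧ S28.OrdGE v (-m) ∧ v.coeff (-m) = 1 := by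
  obtain ⟨w, hw⟩ := S28.isUnit_of_ordGE_of_isUnit_coeff hf (by rw [h1]; exact isUnit_one)
  have hfv : f * (↑w⁻¹ : LaurentSeries R) = 1 := by rw [← hw]; exact w.mul_inv
  set v : LaurentSeries R := ↑w⁻¹ with hv
  have hv0 : v ≠ 0 := by
    intro h
    rw [h, mul_zero] at hfv
    exact zero_ne_one hfv
  have hvo : S28.OrdGE v v.order := fun _ hk => HahnSeries.coeff_eq_zero_of_lt_order hk
  have hc := S28.coeff_mul_of_ordGE hf hvo
  rw [hfv, h1, one_mul] at hc
  have hne : v.coeff v.order ≠ 0 := fun h => hv0 (HahnSeries.coeff_order_eq_zero.mp h)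
  have ho : m + v.order = 0 := by
    by_contra h
    rw [HahnSeries.coeff_one, if_neg h] at hc
    exact hne hc.symm
  have ho' : v.order = -m := by omega
  refine ⟨v, hfv, ho' ▸ hvo, ?_⟩
  rw [← ho', ← hc, ho, HahnSeries.coeff_one, if_pos rfl]

/-- the order of a Laurent series with a given leading coefficient -/
theorem order_eq_of_ordGE {R : Type*} [CommRing R] {f : LaurentSeries R} {m : ℤ}
    (hf : S28.OrdGE f m) (h1 : f.coeff m ≠ 0) : f.order = m := by
  have hf0 : f ≠ 0 := by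
    rintro rfl
    exact h1 rfl
  refine le_antisymm (HahnSeries.order_le_of_coeff_ne_zero h1) ?_
  by_contra h
  exact hf0 (HahnSeries.coeff_order_eq_zero.mp (hf _ (not_le.mp h)))

theorem jF_ne_zero (M : ℕ) : jF M ≠ 0 := by
  intro h
  have h1 : (Jser 1).order = 0 := by
    have hj : ((jF M : FN M) : LaurentSeries Kbar) = Jser 1 := rfl
    rw [← hj, h]; simp
  rw [B.order_Jser_one] at h1
  omega

theorem coe_jF_eq (M : ℕ) : ((jF M : FN M) : LaurentSeries Kbar) = jqModC Kbar := by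
  show Jser 1 = jqModC Kbar
  rw [Formal.Jser_one, coeffEmb, ← jqModC_rat, coeffMap_jqModC]

section U

variable {p M : ℕ} [NeZero M] [Fact p.Prime] (A : ValuationSubring Qb) (hA : A.LiesOverPrime p)
  (D : S28.UData M p)

theorem ordGE_uK : S28.OrdGE (S28.Export.uK A D hA) (((D.n - 1) * D.w : ℕ) : ℤ) := by
  intro k hk
  rw [S28.Export.uK_eq, coeffMap_coeff, D.u_order k hk, map_zero]

theorem coeff_uK : (S28.Export.uK A D hA).coeff (((D.n - 1) * D.w : ℕ) : ℤ) = 1 := by
  rw [S28.Export.uK_eq, coeffMap_coeff, D.u_lead, map_one]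

theorem order_uK : (S28.Export.uK A D hA).order = (((D.n - 1) * D.w : ℕ) : ℤ) :=
  order_eq_of_ordGE (ordGE_uK A hA D) (by rw [coeff_uK]; exact one_ne_zero)

theorem uK_ne_zero : S28.Export.uK A D hA ≠ 0 := by
  intro h
  have := coeff_uK A hA D
  rw [h] at this
  exact zero_ne_one this

theorem ordGE_uO : S28.OrdGE (S28.Export.uO A D hA) (((D.n - 1) * D.w : ℕ) : ℤ) := by
  intro k hk
  have h1 : (S28.Export.uK A D hA).coeff k = 0 := ordGE_uK A hA D k hk
  have h2 : (S28.Export.uK A D hA).coeff k = ((S28.Export.uO A D hA).coeff k : Qb) := rfl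
  rw [h2] at h1
  exact_mod_cast h1

theorem coeff_uO : (S28.Export.uO A D hA).coeff (((D.n - 1) * D.w : ℕ) : ℤ) = 1 := by
  have h1 : (S28.Export.uK A D hA).coeff (((D.n - 1) * D.w : ℕ) : ℤ) = 1 := coeff_uK A hA D
  have h2 : (S28.Export.uK A D hA).coeff (((D.n - 1) * D.w : ℕ) : ℤ) =
    ((S28.Export.uO A D hA).coeff (((D.n - 1) * D.w : ℕ) : ℤ) : Qb) := rfl
  rw [h2] at h1
  exact_mod_cast h1

variable (U : FN M) (hU : (U : LaurentSeries Kbar) = S28.Export.uK A D hA)

include hU in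
theorem U_ne_zero : U ≠ 0 := by
  rintro rfl
  exact uK_ne_zero A hA D hU.symm

include hU in
/-- `j * U^(-κ)` has an `A`-integral expansion with leading coefficient one -/
theorem exists_integral_jF_mul (κ : ℕ) :
    ∃ T : LaurentSeries A,
      E.incl A T = ((jF M * U⁻¹ ^ κ : FN M) : LaurentSeries Kbar) ∧
      (∀ n : ℤ, n < -((κ * ((D.n - 1) * D.w) + 1 : ℕ) : ℤ) → T.coeff n = 0) ∧
      T.coeff (-((κ * ((D.n - 1) * D.w) + 1 : ℕ) : ℤ)) = 1 := by
  obtain ⟨v, hv, hvo, hv1⟩ := exists_inv_of_ordGE (ordGE_uO A hA D) (coeff_uO A hA D)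
  have hidx : (-1 : ℤ) + (κ : ℤ) * (-(((D.n - 1) * D.w : ℕ) : ℤ)) =
      -((κ * ((D.n - 1) * D.w) + 1 : ℕ) : ℤ) := by
    push_cast; ring
  refine ⟨jqModC A * v ^ κ, ?_, ?_, ?_⟩
  · have h1 : S28.Export.uK A D hA * E.incl A v = 1 := by
      have := congrArg (E.incl A) hv
      rwa [map_mul, map_one] at this
    have h2 : E.incl A v = (S28.Export.uK A D hA)⁻¹ := eq_inv_of_mul_eq_one_right h1
    rw [map_mul, map_pow, h2, coeffMap_jqModC]
    have h3 : ((jF M * U⁻¹ ^ κ : FN M) : LaurentSeries Kbar) =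
        ((jF M : FN M) : LaurentSeries Kbar) * ((U : FN M) : LaurentSeries Kbar)⁻¹ ^ κ := by
      push_cast
      rfl
    rw [h3, coe_jF_eq, hU]
  · rw [← hidx]
    exact (S28.ordGE_jqModC A).mul (hvo.pow κ)
  · rw [← hidx, S28.coeff_mul_of_ordGE (S28.ordGE_jqModC A) (hvo.pow κ),
      S28.coeff_pow_of_ordGE hvo, hv1, one_pow, mul_one, coeff_jqModC_neg_one]

include hU in
/-- NODE BASE, from the orders of `U` -/
theorem exists_base
    (h0 : ∀ v : Place Kbar (FN M), 0 ≤ v.ord (jF M) → v.ord U = 0)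
    (hneg : ∀ v : Place Kbar (FN M), v.ord (jF M) < 0 → v ≠ S17.W.cusp M → v.ord U < 0)
    (hle : ∀ v : Place Kbar (FN M), - v.ord (jF M) ≤ D.n) :
    ∃ (d : ℕ) (T : LaurentSeries A) (hT : E.incl A T ∈ modularFunctionFieldBar M),
      0 < d ∧ ¬ p ∣ d ∧ (∀ n : ℤ, n < -(d : ℤ) → T.coeff n = 0) ∧ T.coeff (-(d : ℤ)) = 1 ∧
        (⟨E.incl A T, hT⟩ : FN M) ∈ Linf M d := by
  classical
  have hp : p.Prime := Fact.out
  obtain ⟨κ, hκ, hpκ⟩ : ∃ κ : ℕ, D.n ≤ κ ∧ ¬ p ∣ κ * ((D.n - 1) * D.w) + 1 := by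
    by_cases h : p ∣ D.n * ((D.n - 1) * D.w) + 1
    · refine ⟨D.n + 1, by omega, fun h' => ?_⟩
      have h1 : p ∣ (D.n - 1) * D.w := by
        have : (D.n + 1) * ((D.n - 1) * D.w) + 1 =
            (D.n * ((D.n - 1) * D.w) + 1) + (D.n - 1) * D.w := by ring
        rw [this] at h'
        exact (Nat.dvd_add_right h).mp h'
      have h2 : p ∣ 1 := (Nat.dvd_add_right (h1.mul_left D.n)).mp h
      exact hp.one_lt.ne' (Nat.dvd_one.mp h2)
    · exact ⟨D.n, le_rfl, h⟩
  obtain ⟨T, hT, hlow, hlead⟩ := exists_integral_jF_mul A hA D U hU κ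
  have hmem : E.incl A T ∈ modularFunctionFieldBar M := hT ▸ (SetLike.coe_mem _)
  refine ⟨κ * ((D.n - 1) * D.w) + 1, T, hmem, Nat.succ_pos _, hpκ, hlow, hlead, ?_⟩
  have hTF : (⟨E.incl A T, hmem⟩ : FN M) = jF M * U⁻¹ ^ κ := Subtype.ext hT
  have hj0 : jF M ≠ 0 := jF_ne_zero M
  have hu0 : U ≠ 0 := U_ne_zero A hA D U hU
  rw [hTF, mem_riemannRochSpace_iff]
  intro v
  right
  have hord : v.ord (jF M * U⁻¹ ^ κ) = v.ord (jF M) - κ * v.ord U := by
    rw [v.ord_mul hj0 (pow_ne_zero _ (inv_ne_zero hu0)), FF.ord_pow, v.ord_inv]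
    ring
  rw [hord, Finsupp.single_apply]
  by_cases hv : S17.W.cusp M = v
  · rw [if_pos hv, ← hv, S17.W.ord_cusp M _ hj0, S17.W.ord_cusp M _ hu0, hU, order_uK]
    have hj : ((jF M : FN M) : LaurentSeries Kbar) = Jser 1 := rfl
    rw [hj, B.order_Jser_one]
    push_cast
    omega
  · rw [if_neg hv, neg_zero]
    rcases lt_or_ge (v.ord (jF M)) 0 with hn | hpos
    · have h1 := hneg v hn (fun h => hv h.symm)
      have h2 := hle v
      have h3 : (D.n : ℤ) ≤ κ := by exact_mod_cast hκ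
      nlinarith
    · rw [h0 v hpos]
      simpa using hpos

end U

end BaseCore

end Fermat.Agent.S44.F

end
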