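/-
S44 / F / Dual, node BASE, part B4 (final): `t = j * u^(-κ)` has its only pole at the cusp `∞`, of order `d` prime
to `p`, an `A`-integral expansion and leading coefficient one.
Wiring of `Base/MainCore.lean` with `Base/Unit.lean` (B1) and `Base/Cusps.lean` (B3).
-/
import Fermat.Agent.S44.F.Dual.Base.Unit
import Fermat.Agent.S44.F.Dual.Base.Cusps
import Fermat.Agent.S44.F.Dual.Base.MainCore

set_option autoImplicit false

noncomputable section

namespace Fermat.Agent.S44.F

open ModularCurve AlgebraicCurve IntermediateField Fermat.Agent.S24 Fermat.Agent.GAL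

section U

variable {p M : ℕ} [NeZero M] [Fact p.Prime] (A : ValuationSubring Qb) (hA : A.LiesOverPrime p)
  (D : S28.UData M p) (hu : D.u ∈ modularFunctionFieldFull M)

/-- `j * u^(-κ)` has an `A`-integral expansion with leading coefficient one -/
theorem exists_integral_jF_mul (κ : ℕ) :
    ∃ T : LaurentSeries A,
      E.incl A T = ((jF M * (uF A hA D hu)⁻¹ ^ κ : FN M) : LaurentSeries Kbar) ∧
      (∀ n : ℤ, n < -((κ * ((D.n - 1) * D.w) + 1 : ℕ) : ℤ) → T.coeff n = 0) ∧
      T.coeff (-((κ * ((D.n - 1) * D.w) + 1 : ℕ) : ℤ)) = 1 :=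
  BaseCore.exists_integral_jF_mul A hA D (uF A hA D hu) rfl κ

end U

/-- NODE BASE -/
theorem exists_base (p M : ℕ) [NeZero M] (hp : p.Prime) (hpM : ¬ p ∣ M)
    (A : ValuationSubring Qb) (hA : A.LiesOverPrime p) :
    ∃ (d : ℕ) (T : LaurentSeries A) (hT : E.incl A T ∈ modularFunctionFieldBar M),
      0 < d ∧ ¬ p ∣ d ∧ (∀ n : ℤ, n < -(d : ℤ) → T.coeff n = 0) ∧ T.coeff (-(d : ℤ)) = 1 ∧
        (⟨E.incl A T, hT⟩ : FN M) ∈ Linf M d := by
  have : Fact p.Prime := ⟨hp⟩
  obtain ⟨D, hDn, hu⟩ := S28.Export.exists_good_UData M p hpM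
  exact BaseCore.exists_base A hA D (uF A hA D hu) rfl (ord_uF_eq_zero A hA D hu)
    (ord_uF_neg A hA D hu hDn) (neg_ord_jF_le D hDn)

end Fermat.Agent.S44.F

end
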